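/-
Two-term complexes `d : P → Q`: base change of cokernel and kernel, the fibre criterion.
-/
import Mathlib.RingTheory.TensorProduct.IsBaseChangeRightExact
import Mathlib.RingTheory.LocalRing.Module
import Mathlib.RingTheory.Support
import Mathlib.Algebra.Module.Projective

set_option autoImplicit false

open TensorProduct

namespace Fermat.Agent.Jac.Coh

universe u v v'

variable {R : Type u} [CommRing R]
variable {P Q : Type v} [AddCommGroup P] [Module R P] [AddCommGroup Q] [Module R Q]

section BaseChange

variable {S : Type u} [CommRing S] [Algebra R S]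
variable {P' Q' : Type v'} [AddCommGroup P'] [Module R P'] [Module S P'] [IsScalarTower R S P']
  [AddCommGroup Q'] [Module R Q'] [Module S Q'] [IsScalarTower R S Q']
variable {d : P →ₗ[R] Q} {d' : P' →ₗ[S] Q'} {gP : P →ₗ[R] P'} {gQ : Q →ₗ[R] Q'}

/-- The map of cokernels induced by a map of two-term complexes. -/
noncomputable def cokerMap (comm : gQ ∘ₗ d = d'.restrictScalars R ∘ₗ gP) :
    (Q ⧸ LinearMap.range d) →ₗ[R] Q' ⧸ LinearMap.range d' :=
  Submodule.liftQ _ ((LinearMap.range d').mkQ.restrictScalars R ∘ₗ gQ) (by
    rintro _ ⟨x, rfl⟩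
    have h := LinearMap.congr_fun comm x
    simp only [LinearMap.comp_apply, LinearMap.restrictScalars_apply] at h
    simp only [LinearMap.mem_ker, LinearMap.comp_apply, LinearMap.restrictScalars_apply,
      Submodule.mkQ_apply, h]
    exact (Submodule.Quotient.mk_eq_zero _).2 ⟨_, rfl⟩)

/-- Formation of the cokernel commutes with base change. -/
theorem isBaseChange_cokerMap (comm : gQ ∘ₗ d = d'.restrictScalars R ∘ₗ gP)
    (hP : IsBaseChange S gP) (hQ : IsBaseChange S gQ) : IsBaseChange S (cokerMap comm) :=
  IsBaseChange.of_right_exact S gP gQ (cokerMap comm) (f := d) (g := (LinearMap.range d).mkQ)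
    (f' := d') (g' := (LinearMap.range d').mkQ) comm (LinearMap.ext fun _ => rfl) hP hQ
    (LinearMap.exact_map_mkQ_range d) (Submodule.mkQ_surjective _)
    (LinearMap.exact_map_mkQ_range d') (Submodule.mkQ_surjective _)

/-- A base change of a surjection is surjective. -/
theorem surjective_of_isBaseChange (comm : gQ ∘ₗ d = d'.restrictScalars R ∘ₗ gP)
    (hQ : IsBaseChange S gQ) (hd : Function.Surjective d) : Function.Surjective d' := by
  rw [← LinearMap.range_eq_top, eq_top_iff]
  rintro q -
  refine hQ.inductionOn q _ (Submodule.zero_mem _) (fun x => ?_) (fun s x hx => Submodule.smul_mem _ s hx)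
    (fun x y hx hy => Submodule.add_mem _ hx hy)
  obtain ⟨y, rfl⟩ := hd x
  exact ⟨gP y, (LinearMap.congr_fun comm y).symm⟩

/-- A retract of a base change is a base change. -/
theorem isBaseChange_of_retract {K : Type v} [AddCommGroup K] [Module R K]
    {K' : Type v'} [AddCommGroup K'] [Module R K'] [Module S K'] [IsScalarTower R S K']
    {gK : K →ₗ[R] K'} (hP : IsBaseChange S gP) (i : K →ₗ[R] P) (p : P →ₗ[R] K)
    (i' : K' →ₗ[S] P') (p' : P' →ₗ[S] K') (hpi : p ∘ₗ i = LinearMap.id)
    (hpi' : p' ∘ₗ i' = LinearMap.id) (ci : gP ∘ₗ i = i'.restrictScalars R ∘ₗ gK)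
    (cp : gK ∘ₗ p = p'.restrictScalars R ∘ₗ gP) : IsBaseChange S gK := by
  let eK : S ⊗[R] K →ₗ[S] K' := (TensorProduct.isBaseChange R K S).lift gK
  have heK : ∀ x, eK (1 ⊗ₜ x) = gK x := fun x => (TensorProduct.isBaseChange R K S).lift_eq gK x
  have h1 : i' ∘ₗ eK = (hP.equiv.toLinearMap ∘ₗ i.baseChange S) := by
    apply TensorProduct.AlgebraTensorModule.curry_injective
    ext x
    simpa [heK, hP.equiv_tmul] using (LinearMap.congr_fun ci x).symm
  have h2 : eK ∘ₗ p.baseChange S = p' ∘ₗ hP.equiv.toLinearMap := by
    apply TensorProduct.AlgebraTensorModule.curry_injective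
    ext x
    simpa [heK, hP.equiv_tmul] using LinearMap.congr_fun cp x
  have hinj : Function.Injective (i.baseChange S) := by
    intro a b hab
    have := congrArg (p.baseChange S) hab
    rwa [← LinearMap.comp_apply, ← LinearMap.comp_apply, ← LinearMap.baseChange_comp, hpi,
      LinearMap.baseChange_id, LinearMap.id_apply, LinearMap.id_apply] at this
  refine IsBaseChange.of_equiv (LinearEquiv.ofBijective eK ⟨?_, ?_⟩) heK
  · intro a b hab
    apply hinj
    apply hP.equiv.injective
    have ha := LinearMap.congr_fun h1 a
    have hb := LinearMap.congr_fun h1 b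
    simp only [LinearMap.comp_apply, LinearEquiv.coe_coe] at ha hb
    rw [← ha, ← hb, hab]
  · intro k
    obtain ⟨x, hx⟩ := hP.equiv.surjective (i' k)
    refine ⟨p.baseChange S x, ?_⟩
    have := LinearMap.congr_fun h2 x
    simp only [LinearMap.comp_apply, LinearEquiv.coe_coe, hx] at this
    rw [this]
    exact LinearMap.congr_fun hpi' k

/-- The map of kernels induced by a map of two-term complexes. -/
noncomputable def kerMap (comm : gQ ∘ₗ d = d'.restrictScalars R ∘ₗ gP) :
    LinearMap.ker d →ₗ[R] LinearMap.ker d' :=
  LinearMap.codRestrict ((LinearMap.ker d').restrictScalars R) (gP ∘ₗ (LinearMap.ker d).subtype)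
    (fun x => by
      have := LinearMap.congr_fun comm x.1
      simp only [LinearMap.comp_apply, LinearMap.restrictScalars_apply, LinearMap.mem_ker.1 x.2,
        map_zero] at this
      simpa using this.symm)

/-- For a surjection onto a projective module, formation of the kernel commutes with base change. -/
theorem isBaseChange_kerMap [Module.Projective R Q] (comm : gQ ∘ₗ d = d'.restrictScalars R ∘ₗ gP)
    (hP : IsBaseChange S gP) (hQ : IsBaseChange S gQ) (hd : Function.Surjective d) :
    IsBaseChange S (kerMap comm) := by
  obtain ⟨h, hh⟩ := Module.projective_lifting_property d LinearMap.id hd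
  let h' : Q' →ₗ[S] P' := hQ.lift (gP ∘ₗ h)
  have hh' : d' ∘ₗ h' = LinearMap.id := by
    apply hQ.algHom_ext
    intro x
    have h1 := LinearMap.congr_fun hh x
    have h2 := LinearMap.congr_fun comm (h x)
    simp only [LinearMap.comp_apply, LinearMap.restrictScalars_apply, LinearMap.id_apply] at h1 h2
    simp [h', hQ.lift_eq, ← h2, h1]
  let p : P →ₗ[R] LinearMap.ker d := LinearMap.codRestrict _ (LinearMap.id - h ∘ₗ d) (fun x => by
    have := LinearMap.congr_fun hh (d x)
    simp only [LinearMap.comp_apply, LinearMap.id_apply] at this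
    simp [this])
  let p' : P' →ₗ[S] LinearMap.ker d' := LinearMap.codRestrict _ (LinearMap.id - h' ∘ₗ d') (fun x => by
    have := LinearMap.congr_fun hh' (d' x)
    simp only [LinearMap.comp_apply, LinearMap.id_apply] at this
    simp [this])
  refine isBaseChange_of_retract hP (LinearMap.ker d).subtype p (LinearMap.ker d').subtype p'
    (LinearMap.ext fun x => Subtype.ext (by simp [p]))
    (LinearMap.ext fun x => Subtype.ext (by simp [p'])) (LinearMap.ext fun x => rfl)
    (LinearMap.ext fun x => Subtype.ext ?_)
  have h2 := LinearMap.congr_fun comm x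
  simp only [LinearMap.comp_apply, LinearMap.restrictScalars_apply] at h2
  change gP (x - h (d x)) = gP x - h' (d' (gP x))
  simp [← h2, h', hQ.lift_eq]

end BaseChange

/-- The kernel of a surjection onto a projective module is finite as soon as it is contained in a
finite submodule. -/
theorem finite_ker_of_surjective [Module.Projective R Q] {d : P →ₗ[R] Q} (hd : Function.Surjective d)
    {W : Submodule R P} (hW : W.FG) (hle : LinearMap.ker d ≤ W) :
    Module.Finite R (LinearMap.ker d) := by
  obtain ⟨h, hh⟩ := Module.projective_lifting_property d LinearMap.id hd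
  have : Module.Finite R W := Module.Finite.iff_fg.2 hW
  let p : P →ₗ[R] LinearMap.ker d := LinearMap.codRestrict _ (LinearMap.id - h ∘ₗ d) (fun x => by
    have := LinearMap.congr_fun hh (d x)
    simp only [LinearMap.comp_apply, LinearMap.id_apply] at this
    simp [this])
  refine Module.Finite.of_surjective (p ∘ₗ W.subtype) fun k => ⟨⟨k.1, hle k.2⟩, Subtype.ext ?_⟩
  simp [p]

/-- The kernel of a surjection of projective modules is projective. -/
theorem projective_ker_of_surjective [Module.Projective R P] [Module.Projective R Q]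
    {d : P →ₗ[R] Q} (hd : Function.Surjective d) : Module.Projective R (LinearMap.ker d) := by
  obtain ⟨h, hh⟩ := Module.projective_lifting_property d LinearMap.id hd
  let p : P →ₗ[R] LinearMap.ker d := LinearMap.codRestrict _ (LinearMap.id - h ∘ₗ d) (fun x => by
    have := LinearMap.congr_fun hh (d x)
    simp only [LinearMap.comp_apply, LinearMap.id_apply] at this
    simp [this])
  exact Module.Projective.of_split (LinearMap.ker d).subtype p
    (LinearMap.ext fun x => Subtype.ext (by simp [p]))

/-- Fibre criterion: if a finite module vanishes at a point, it is killed by a function not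
vanishing there. -/
theorem exists_smul_eq_zero_of_fibre {M : Type v} [AddCommGroup M] [Module R M] [Module.Finite R M]
    (p : PrimeSpectrum R) (h : Subsingleton (p.asIdeal.ResidueField ⊗[R] M)) :
    ∃ f : R, f ∉ p.asIdeal ∧ ∀ m : M, f • m = 0 := by
  have hp : p ∉ Module.support R M := by
    rw [Module.mem_support_iff_nontrivial_residueField_tensorProduct]
    exact fun hn => not_subsingleton _ h
  rw [Module.mem_support_iff_of_finite, SetLike.not_le_iff_exists] at hp
  obtain ⟨f, hf, hfp⟩ := hp
  exact ⟨f, hfp, Module.mem_annihilator.1 hf⟩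

/-- A base change of a module killed by `f` to a ring where `f` is invertible is trivial. -/
theorem subsingleton_of_isBaseChange_of_isUnit {M : Type v} [AddCommGroup M] [Module R M]
    {S : Type u} [CommRing S] [Algebra R S] {M' : Type v'} [AddCommGroup M'] [Module R M']
    [Module S M'] [IsScalarTower R S M'] {g : M →ₗ[R] M'} (hg : IsBaseChange S g) {f : R}
    (hf : IsUnit (algebraMap R S f)) (hM : ∀ m : M, f • m = 0) : Subsingleton M' := by
  refine subsingleton_of_forall_eq 0 fun m' => ?_
  refine hg.inductionOn m' _ rfl (fun x => ?_) (fun s x hx => by rw [hx, smul_zero])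
    (fun x y hx hy => by rw [hx, hy, add_zero])
  have : algebraMap R S f • g x = 0 := by rw [algebraMap_smul, ← map_smul, hM, map_zero]
  exact hf.smul_eq_zero.1 this

end Fermat.Agent.Jac.Coh
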