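/-
Modules glued from two charts along the projective line over an arbitrary base ring:
finiteness of `H⁰`, `H¹` and vanishing of `H¹` after twisting.
-/
import Fermat.Agent.Jac.Coh.Complex
import Mathlib.RingTheory.Finiteness.Projective
import Mathlib.RingTheory.Finiteness.Prod
import Mathlib.Algebra.Polynomial.Module.Basic
import Mathlib.Data.Int.Interval

set_option autoImplicit false
set_option linter.unusedSectionVars false

open Polynomial

namespace Fermat.Agent.Jac.Coh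

universe u v

variable {R : Type u} [CommRing R]

/-- A module projective over an algebra which is free over `R` is projective over `R`. -/
theorem projective_of_free_algebra {A : Type*} [CommRing A] [Algebra R A] [Module.Free R A]
    {P : Type*} [AddCommGroup P] [Module A P] [Module R P] [IsScalarTower R A P]
    [Module.Projective A P] : Module.Projective R P := by
  obtain ⟨i, hi⟩ := (Module.projective_def' (R := A) (P := P)).1 inferInstance
  refine Module.Projective.of_split (i.restrictScalars R)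
    ((Finsupp.linearCombination A (id : P → P)).restrictScalars R) ?_
  rw [← LinearMap.restrictScalars_comp, hi, LinearMap.restrictScalars_id]

variable {M₀ M₁ M₀₁ : Type v}
variable [AddCommGroup M₀] [Module R M₀] [Module R[X] M₀] [IsScalarTower R R[X] M₀]
variable [AddCommGroup M₁] [Module R M₁] [Module R[X] M₁] [IsScalarTower R R[X] M₁]
variable [AddCommGroup M₀₁] [Module R M₀₁]

/-- `M₀` (coordinate `X`) and `M₁` (coordinate `X⁻¹`) are charts of a module on the projective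
line over `R`, with overlap `M₀₁`. -/
structure IsLineGlue (x : M₀₁ ≃ₗ[R] M₀₁) (r₀ : M₀ →ₗ[R] M₀₁) (r₁ : M₁ →ₗ[R] M₀₁) : Prop where
  map₀ : ∀ m, r₀ ((X : R[X]) • m) = x (r₀ m)
  map₁ : ∀ m, r₁ ((X : R[X]) • m) = x.symm (r₁ m)
  surj₀ : ∀ m, ∃ n : ℕ, (x ^ (n : ℤ)) m ∈ LinearMap.range r₀
  surj₁ : ∀ m, ∃ n : ℕ, (x ^ (-(n : ℤ))) m ∈ LinearMap.range r₁
  eq₀ : ∀ a b, r₀ a = r₀ b → ∃ n : ℕ, (X : R[X]) ^ n • a = (X : R[X]) ^ n • b
  eq₁ : ∀ a b, r₁ a = r₁ b → ∃ n : ℕ, (X : R[X]) ^ n • a = (X : R[X]) ^ n • b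

/-- The Cech differential. -/
def diff (r₀ : M₀ →ₗ[R] M₀₁) (r₁ : M₁ →ₗ[R] M₀₁) : (M₀ × M₁) →ₗ[R] M₀₁ :=
  r₀.coprod (-r₁)

omit [Module R[X] M₀] [IsScalarTower R R[X] M₀] [Module R[X] M₁] [IsScalarTower R R[X] M₁] in
@[simp]
theorem diff_apply (r₀ : M₀ →ₗ[R] M₀₁) (r₁ : M₁ →ₗ[R] M₀₁) (p : M₀ × M₁) :
    diff r₀ r₁ p = r₀ p.1 - r₁ p.2 := by
  simp [diff, sub_eq_add_neg]

omit [Module R[X] M₀] [IsScalarTower R R[X] M₀] [Module R[X] M₁] [IsScalarTower R R[X] M₁] in
theorem range_diff (r₀ : M₀ →ₗ[R] M₀₁) (r₁ : M₁ →ₗ[R] M₀₁) :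
    LinearMap.range (diff r₀ r₁) = LinearMap.range r₀ ⊔ LinearMap.range r₁ := by
  rw [diff, LinearMap.range_coprod, LinearMap.range_neg]

namespace IsLineGlue

variable {x : M₀₁ ≃ₗ[R] M₀₁} {r₀ : M₀ →ₗ[R] M₀₁} {r₁ : M₁ →ₗ[R] M₀₁}

theorem swap (h : IsLineGlue x r₀ r₁) : IsLineGlue x.symm r₁ r₀ where
  map₀ := h.map₁
  map₁ := by simpa using h.map₀
  surj₀ := fun m => by
    obtain ⟨n, hn⟩ := h.surj₁ m
    refine ⟨n, ?_⟩
    rwa [show x.symm = x⁻¹ from rfl, inv_zpow, ← zpow_neg]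
  surj₁ := fun m => by
    obtain ⟨n, hn⟩ := h.surj₀ m
    refine ⟨n, ?_⟩
    rwa [show x.symm = x⁻¹ from rfl, inv_zpow, ← zpow_neg, neg_neg]
  eq₀ := h.eq₁
  eq₁ := h.eq₀

theorem zpow_apply_add (j k : ℤ) (m : M₀₁) : (x ^ (j + k)) m = (x ^ j) ((x ^ k) m) := by
  rw [zpow_add]; rfl

theorem r₀_X_pow (h : IsLineGlue x r₀ r₁) (n : ℕ) (m : M₀) :
    r₀ ((X : R[X]) ^ n • m) = (x ^ (n : ℤ)) (r₀ m) := by
  induction n with
  | zero => simp
  | succ n ih => rw [pow_succ', mul_smul, h.map₀, ih, Nat.cast_succ, add_comm,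
      zpow_apply_add, zpow_one]

theorem r₁_X_pow (h : IsLineGlue x r₀ r₁) (n : ℕ) (m : M₁) :
    r₁ ((X : R[X]) ^ n • m) = (x ^ (-(n : ℤ))) (r₁ m) := by
  rw [h.swap.r₀_X_pow, show x.symm = x⁻¹ from rfl, inv_zpow, ← zpow_neg]

theorem zpow_mem_range₀ (h : IsLineGlue x r₀ r₁) {j : ℤ} (hj : 0 ≤ j) {m : M₀₁}
    (hm : m ∈ LinearMap.range r₀) : (x ^ j) m ∈ LinearMap.range r₀ := by
  obtain ⟨a, rfl⟩ := hm
  lift j to ℕ using hj
  exact ⟨_, h.r₀_X_pow j a⟩

theorem zpow_mem_range₁ (h : IsLineGlue x r₀ r₁) {j : ℤ} (hj : j ≤ 0) {m : M₀₁}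
    (hm : m ∈ LinearMap.range r₁) : (x ^ j) m ∈ LinearMap.range r₁ := by
  obtain ⟨a, rfl⟩ := hm
  obtain ⟨k, rfl⟩ : ∃ k : ℕ, j = -(k : ℤ) := ⟨(-j).toNat, by omega⟩
  exact ⟨_, h.r₁_X_pow k a⟩

/-- Twist by `n` times the polar divisor of the coordinate. -/
theorem twist (h : IsLineGlue x r₀ r₁) (n : ℤ) :
    IsLineGlue x r₀ ((x ^ n).toLinearMap ∘ₗ r₁) where
  map₀ := h.map₀
  map₁ := fun m => by
    simp only [LinearMap.comp_apply, LinearEquiv.coe_coe, h.map₁, show x.symm = x⁻¹ from rfl]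
    rw [← zpow_neg_one x, ← zpow_apply_add, add_comm, zpow_apply_add]
  surj₀ := h.surj₀
  surj₁ := fun m => by
    obtain ⟨k, a, ha⟩ := h.surj₁ ((x ^ (-n)) m)
    refine ⟨k, a, ?_⟩
    simp only [LinearMap.comp_apply, LinearEquiv.coe_coe, ha, ← zpow_apply_add]
    ring_nf
  eq₀ := h.eq₀
  eq₁ := fun a b hab => h.eq₁ a b ((x ^ n).injective hab)

/-- A submodule containing every `x ^ j` translate of the generators of `M₀` is everything. -/
theorem eq_top_of_zpow_mem (h : IsLineGlue x r₀ r₁) {s : Set M₀}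
    (hs : Submodule.span R[X] s = ⊤) (T : Submodule R M₀₁)
    (hT : ∀ e ∈ s, ∀ j : ℤ, (x ^ j) (r₀ e) ∈ T) : T = ⊤ := by
  have key : ∀ a : M₀, ∀ j : ℤ, (x ^ j) (r₀ a) ∈ T := by
    intro a
    have ha : a ∈ Submodule.span R[X] s := hs ▸ Submodule.mem_top
    induction ha using Submodule.span_induction with
    | mem e he => exact hT e he
    | zero => simp
    | add a b _ _ ha hb => intro j; rw [map_add, map_add]; exact T.add_mem (ha j) (hb j)
    | smul p a _ ha =>
      induction p using Polynomial.induction_on' with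
      | add p q hp hq => intro j; rw [add_smul, map_add, map_add]; exact T.add_mem (hp j) (hq j)
      | monomial k c =>
        intro j
        rw [← C_mul_X_pow_eq_monomial, mul_smul, C_eq_algebraMap, algebraMap_smul, map_smul,
          map_smul, h.r₀_X_pow, ← zpow_apply_add]
        exact T.smul_mem c (ha _)
  refine eq_top_iff.2 fun m _ => ?_
  obtain ⟨n, a, ha⟩ := h.surj₀ m
  have := key a (-(n : ℤ))
  rwa [ha, ← zpow_apply_add, neg_add_cancel, zpow_zero] at this

/-- `H¹` of a glued module is finite, over any base ring. -/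
theorem finite_coker [Module.Finite R[X] M₀] (h : IsLineGlue x r₀ r₁) :
    Module.Finite R (M₀₁ ⧸ LinearMap.range (diff r₀ r₁)) := by
  classical
  obtain ⟨s, hs⟩ := Module.Finite.fg_top (R := R[X]) (M := M₀)
  choose n hn using fun e : M₀ => h.surj₁ (r₀ e)
  let t : Finset M₀₁ := s.biUnion fun e => (Finset.Icc (-(n e : ℤ)) 0).image fun j => (x ^ j) (r₀ e)
  have htop : LinearMap.range (diff r₀ r₁) ⊔ Submodule.span R (t : Set M₀₁) = ⊤ := by
    refine h.eq_top_of_zpow_mem hs _ fun e he j => ?_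
    by_cases hj : 0 ≤ j
    · rw [range_diff]
      exact Submodule.mem_sup_left (Submodule.mem_sup_left (h.zpow_mem_range₀ hj ⟨e, rfl⟩))
    by_cases hj' : j ≤ -(n e : ℤ)
    · rw [range_diff]
      refine Submodule.mem_sup_left (Submodule.mem_sup_right ?_)
      have := h.zpow_mem_range₁ (j := j + (n e : ℤ)) (by omega) (hn e)
      rwa [← zpow_apply_add, add_neg_cancel_right] at this
    · refine Submodule.mem_sup_right (Submodule.subset_span ?_)
      simp only [t, Finset.coe_biUnion, Finset.coe_image, Set.mem_iUnion]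
      exact ⟨e, he, j, by simp only [Finset.coe_Icc, Set.mem_Icc]; omega, rfl⟩
  refine ⟨⟨t.image (LinearMap.range (diff r₀ r₁)).mkQ, ?_⟩⟩
  rw [Finset.coe_image, Submodule.span_image, ← Submodule.comap_injective_of_surjective
    (Submodule.mkQ_surjective (LinearMap.range (diff r₀ r₁))) |>.eq_iff,
    Submodule.comap_map_mkQ, Submodule.comap_top]
  exact htop

/-- Serre vanishing: after a large twist `H¹` vanishes. -/
theorem exists_twist_surjective [Module.Finite R[X] M₀] (h : IsLineGlue x r₀ r₁) :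
    ∃ N : ℕ, ∀ n : ℕ, N ≤ n → Function.Surjective (diff r₀ ((x ^ (n : ℤ)).toLinearMap ∘ₗ r₁)) := by
  obtain ⟨s, hs⟩ := Module.Finite.fg_top (R := R[X]) (M := M₀)
  choose k hk using fun e : M₀ => h.surj₁ (r₀ e)
  refine ⟨s.sup k, fun n hn => ?_⟩
  rw [← LinearMap.range_eq_top, range_diff]
  refine (h.twist n).eq_top_of_zpow_mem hs _ fun e he j => ?_
  by_cases hj : 0 ≤ j
  · exact Submodule.mem_sup_left (h.zpow_mem_range₀ hj ⟨e, rfl⟩)
  · refine Submodule.mem_sup_right ?_
    have hke : k e ≤ n := (Finset.le_sup he).trans hn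
    obtain ⟨a, ha⟩ := h.zpow_mem_range₁ (j := j - (n : ℤ) + (k e : ℤ)) (by omega) (hk e)
    refine ⟨a, ?_⟩
    simp only [LinearMap.comp_apply, LinearEquiv.coe_coe, ha, ← zpow_apply_add]
    ring_nf

/-- The first components of `H⁰` lie in a finite submodule. -/
theorem exists_fg_fst [Module.Finite R[X] M₀] [Module.Projective R[X] M₀] [Module.Finite R[X] M₁]
    (h : IsLineGlue x r₀ r₁) :
    ∃ W : Submodule R M₀, W.FG ∧ ∀ s t, r₀ s = r₁ t → s ∈ W := by
  classical
  obtain ⟨m, g, f, -, -, hgf⟩ := Module.Finite.exists_comp_eq_id_of_projective R[X] M₀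
  -- elements of bounded degree
  let L : ℕ → Submodule R M₀ := fun d =>
    { carrier := {a | ∀ l i, d < i → (f a l).coeff i = 0}
      zero_mem' := by simp
      add_mem' := fun {a b} ha hb l i hi => by simp [ha l i hi, hb l i hi]
      smul_mem' := fun c a ha l i hi => by
        rw [LinearMap.map_smul_of_tower, Pi.smul_apply, coeff_smul, ha l i hi, smul_zero] }
  have hmono : ∀ {d e : ℕ}, d ≤ e → L d ≤ L e := fun hde a ha l i hi => ha l i (lt_of_le_of_lt hde hi)
  have hbdd : ∀ a, ∃ d, a ∈ L d := fun a => ⟨Finset.univ.sup fun l => (f a l).natDegree,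
    fun l i hi => coeff_eq_zero_of_natDegree_lt
      (lt_of_le_of_lt (Finset.le_sup (f := fun l => (f a l).natDegree) (Finset.mem_univ l)) hi)⟩
  have hX : ∀ (k : ℕ) {d : ℕ} {a : M₀}, a ∈ L d → (X : R[X]) ^ k • a ∈ L (d + k) := by
    intro k d a ha l i hi
    rw [map_smul, Pi.smul_apply, smul_eq_mul, coeff_X_pow_mul']
    split
    · exact ha l _ (by omega)
    · rfl
  obtain ⟨F, hF⟩ := Module.Finite.fg_top (R := R[X]) (M := M₁)
  choose n hn using fun e : M₁ => h.surj₀ (r₁ e)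
  choose a ha using hn
  choose d hd using hbdd
  let N := F.sup n
  let D := F.sup (fun e => d (a e)) + N
  have key : ∀ t : M₁, ∃ J : ℕ, ∀ J' ≥ J, ∃ b ∈ L (D + J'),
      r₀ b = (x ^ ((N + J' : ℕ) : ℤ)) (r₁ t) := by
    intro t
    have ht : t ∈ Submodule.span R[X] (F : Set M₁) := hF ▸ Submodule.mem_top
    induction ht using Submodule.span_induction with
    | mem e he =>
      refine ⟨0, fun J' _ => ⟨(X : R[X]) ^ (N + J' - n e) • a e, ?_, ?_⟩⟩
      · refine hmono ?_ (hX _ (hd (a e)))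
        have := Finset.le_sup (f := fun e => d (a e)) he
        omega
      · rw [h.r₀_X_pow, ha, ← zpow_apply_add]
        have := Finset.le_sup (f := n) he
        congr 2
        omega
    | zero => exact ⟨0, fun J' _ => ⟨0, Submodule.zero_mem _, by simp⟩⟩
    | add s t _ _ hs ht =>
      obtain ⟨J, hJ⟩ := hs
      obtain ⟨K, hK⟩ := ht
      refine ⟨max J K, fun J' hJ' => ?_⟩
      obtain ⟨b, hb, hb'⟩ := hJ J' (le_of_max_le_left hJ')
      obtain ⟨c, hc, hc'⟩ := hK J' (le_of_max_le_right hJ')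
      exact ⟨b + c, Submodule.add_mem _ hb hc, by rw [map_add, map_add, map_add, hb', hc']⟩
    | smul p t _ ht =>
      induction p using Polynomial.induction_on' with
      | add p q hp hq =>
        obtain ⟨J, hJ⟩ := hp
        obtain ⟨K, hK⟩ := hq
        refine ⟨max J K, fun J' hJ' => ?_⟩
        obtain ⟨b, hb, hb'⟩ := hJ J' (le_of_max_le_left hJ')
        obtain ⟨c, hc, hc'⟩ := hK J' (le_of_max_le_right hJ')
        exact ⟨b + c, Submodule.add_mem _ hb hc,
          by rw [add_smul, map_add, map_add, map_add, hb', hc']⟩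
      | monomial k c =>
        obtain ⟨J, hJ⟩ := ht
        refine ⟨J + k, fun J' hJ' => ?_⟩
        obtain ⟨b, hb, hb'⟩ := hJ (J' - k) (by omega)
        refine ⟨c • b, Submodule.smul_mem _ c (hmono (by omega) hb), ?_⟩
        rw [map_smul, hb', ← C_mul_X_pow_eq_monomial, mul_smul, C_eq_algebraMap, algebraMap_smul,
          map_smul, map_smul, h.r₁_X_pow, ← zpow_apply_add]
        congr 3
        omega
  refine ⟨Submodule.span R ↑((Finset.univ ×ˢ Finset.range (D + 1)).image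
    fun li : Fin m × ℕ => (X : R[X]) ^ li.2 • g (Pi.single li.1 1)),
    Submodule.fg_span (Finset.finite_toSet _), fun s t hst => ?_⟩
  obtain ⟨J, hJ⟩ := key t
  obtain ⟨b, hb, hb'⟩ := hJ J le_rfl
  rw [← hst, ← h.r₀_X_pow] at hb'
  obtain ⟨K, hK⟩ := h.eq₀ _ _ hb'
  have hsD : s ∈ L D := fun l i hi => by
    have h1 := congrArg (fun z => (f z l).coeff (i + (N + J) + K)) hK
    simp only [map_smul, Pi.smul_apply, smul_eq_mul, coeff_X_pow_mul] at h1
    rw [← h1]
    exact hb l _ (by omega)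
  rw [show s = g (f s) from (LinearMap.congr_fun hgf s).symm, pi_eq_sum_univ (f s), map_sum]
  refine Submodule.sum_mem _ fun l _ => ?_
  have hl : (f s l).natDegree < D + 1 := Nat.lt_succ_of_le
    (natDegree_le_iff_coeff_eq_zero.2 fun i hi => hsD l i hi)
  rw [map_smul, (f s l).as_sum_range' (D + 1) hl, Finset.sum_smul]
  refine Submodule.sum_mem _ fun i hi => ?_
  rw [← C_mul_X_pow_eq_monomial, mul_smul, C_eq_algebraMap, algebraMap_smul]
  refine Submodule.smul_mem _ _ (Submodule.subset_span ?_)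
  rw [Finset.coe_image]
  refine ⟨(l, i), by simpa using hi, ?_⟩
  change (X : R[X]) ^ i • g (Pi.single l 1) = _
  rw [show (Pi.single l 1 : Fin m → R[X]) = fun j => if l = j then 1 else 0 from
    funext fun j => by simp [Pi.single_apply, eq_comm]]

/-- `H⁰` lies in a finite submodule of `M₀ × M₁`. -/
theorem exists_fg_ker_le [Module.Finite R[X] M₀] [Module.Projective R[X] M₀]
    [Module.Finite R[X] M₁] [Module.Projective R[X] M₁] (h : IsLineGlue x r₀ r₁) :
    ∃ W : Submodule R (M₀ × M₁), W.FG ∧ LinearMap.ker (diff r₀ r₁) ≤ W := by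
  obtain ⟨W₀, hW₀, h₀⟩ := h.exists_fg_fst
  obtain ⟨W₁, hW₁, h₁⟩ := h.swap.exists_fg_fst
  refine ⟨W₀.prod W₁, Submodule.FG.prod hW₀ hW₁, fun p hp => ?_⟩
  rw [LinearMap.mem_ker, diff_apply, sub_eq_zero] at hp
  exact ⟨h₀ _ _ hp, h₁ _ _ hp.symm⟩

/-- If `H¹ = 0`, then `H⁰` is finite projective. -/
theorem finite_projective_ker [Module.Finite R[X] M₀] [Module.Projective R[X] M₀]
    [Module.Finite R[X] M₁] [Module.Projective R[X] M₁] [Module.Projective R M₀₁]
    (h : IsLineGlue x r₀ r₁) (hd : Function.Surjective (diff r₀ r₁)) :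
    Module.Finite R (LinearMap.ker (diff r₀ r₁)) ∧
      Module.Projective R (LinearMap.ker (diff r₀ r₁)) := by
  have : Module.Projective R M₀ := projective_of_free_algebra (A := R[X])
  have : Module.Projective R M₁ := projective_of_free_algebra (A := R[X])
  obtain ⟨W, hW, hle⟩ := h.exists_fg_ker_le
  exact ⟨finite_ker_of_surjective hd hW hle, projective_ker_of_surjective hd⟩

end IsLineGlue

end Fermat.Agent.Jac.Coh
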