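/-
Fibres of glued modules: openness of `H¹ = 0`, semicontinuity, local constancy of the Euler
characteristic.
-/
import Fermat.Agent.Jac.Coh.Glue
import Mathlib.Algebra.Module.LinearMap.Index
import Mathlib.RingTheory.Spectrum.Prime.FreeLocus
import Mathlib.RingTheory.TensorProduct.Quotient
import Mathlib.RingTheory.Polynomial.Quotient
import Mathlib.RingTheory.AdjoinRoot

set_option autoImplicit false
set_option linter.unusedSectionVars false

open TensorProduct Polynomial

namespace Fermat.Agent.Jac.Coh

universe u v

variable {R : Type u} [CommRing R]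

/-- The point of `Spec R` under a field-valued point. -/
def fieldPoint (R K : Type u) [CommRing R] [Field K] [Algebra R K] : PrimeSpectrum R :=
  PrimeSpectrum.comap (algebraMap R K) ⊥

theorem fieldPoint_asIdeal (R K : Type u) [CommRing R] [Field K] [Algebra R K] :
    (fieldPoint R K).asIdeal = RingHom.ker (algebraMap R K) := rfl

section Finite

variable {C : Type v} [AddCommGroup C] [Module R C]

/-- Fibre dimensions only depend on the point of `Spec R`. -/
theorem finrank_fibre_eq (K : Type u) [Field K] [Algebra R K] [Module.Finite R C] :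
    Module.finrank K (K ⊗[R] C) =
      Module.finrank (fieldPoint R K).asIdeal.ResidueField
        ((fieldPoint R K).asIdeal.ResidueField ⊗[R] C) := by
  set p := (fieldPoint R K).asIdeal
  let φ : p.ResidueField →ₐ[R] K := Ideal.ResidueField.liftₐ p (Algebra.ofId R K)
    (fun r hr => hr) (fun r hr => isUnit_iff_ne_zero.2 hr)
  let _ : Algebra p.ResidueField K := φ.toRingHom.toAlgebra
  have : IsScalarTower R p.ResidueField K := IsScalarTower.of_algHom φ
  rw [← (AlgebraTensorModule.cancelBaseChange R p.ResidueField K K C).finrank_eq,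
    Module.finrank_baseChange]

theorem subsingleton_fibre_iff (K : Type u) [Field K] [Algebra R K] [Module.Finite R C] :
    Subsingleton (K ⊗[R] C) ↔ fieldPoint R K ∉ Module.support R C := by
  rw [Module.mem_support_iff_nontrivial_residueField_tensorProduct, not_nontrivial_iff_subsingleton,
    ← Module.finrank_zero_iff (R := K), finrank_fibre_eq K, Module.finrank_zero_iff]

/-- Semicontinuity: the fibre dimension of a finite module can only jump up under
specialisation. -/
theorem exists_fibre_le [Module.Finite R C] (p : PrimeSpectrum R) :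
    ∃ f : R, f ∉ p.asIdeal ∧ ∀ (K : Type u) [Field K] [Algebra R K], f ∉ (fieldPoint R K).asIdeal →
      Module.finrank K (K ⊗[R] C) ≤
        Module.finrank p.asIdeal.ResidueField (p.asIdeal.ResidueField ⊗[R] C) := by
  set κ := p.asIdeal.ResidueField
  set m := Module.finrank κ (κ ⊗[R] C)
  obtain ⟨t, ht, hcard, hsp, -⟩ := Submodule.exists_finset_span_eq_linearIndepOn κ
    (Set.range fun c : C => (1 : κ) ⊗ₜ[R] c)
  have hspan : Submodule.span κ (Set.range fun c : C => (1 : κ) ⊗ₜ[R] c) = ⊤ := by
    rw [eq_top_iff]
    rintro z -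
    induction z using TensorProduct.induction_on with
    | zero => exact Submodule.zero_mem _
    | tmul a c =>
      rw [show a ⊗ₜ[R] c = a • ((1 : κ) ⊗ₜ[R] c) by rw [smul_tmul', smul_eq_mul, mul_one]]
      exact Submodule.smul_mem _ _ (Submodule.subset_span ⟨c, rfl⟩)
    | add x y hx hy => exact Submodule.add_mem _ hx hy
  rw [hspan] at hsp hcard
  rw [finrank_top] at hcard
  choose v hv using fun z : {z // z ∈ t} => ht z.2
  let q : C →ₗ[R] C ⧸ Submodule.span R (Set.range v) := Submodule.mkQ _
  have hq : Subsingleton (κ ⊗[R] (C ⧸ Submodule.span R (Set.range v))) := by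
    refine subsingleton_of_forall_eq 0 fun z => ?_
    obtain ⟨z, rfl⟩ := LinearMap.lTensor_surjective κ (g := q) (Submodule.mkQ_surjective _) z
    have hz : z ∈ Submodule.span κ (t : Set (κ ⊗[R] C)) := hsp ▸ Submodule.mem_top
    change q.baseChange κ z = 0
    induction hz using Submodule.span_induction with
    | mem w hw =>
      rw [show w = (⟨w, hw⟩ : {z // z ∈ t}).1 from rfl, ← hv ⟨w, hw⟩]
      have : q (v ⟨w, hw⟩) = 0 :=
        (Submodule.Quotient.mk_eq_zero _).2 (Submodule.subset_span ⟨_, rfl⟩)
      simp [this]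
    | zero => simp
    | add a b _ _ ha hb => rw [map_add, ha, hb, add_zero]
    | smul a b _ hb => rw [map_smul, hb, smul_zero]
  obtain ⟨f, hfp, hf⟩ := exists_smul_eq_zero_of_fibre p hq
  refine ⟨f, hfp, fun K _ _ hK => ?_⟩
  rw [show m = Fintype.card t by rw [Fintype.card_coe]; exact hcard.symm]
  refine (finrank_le_of_span_eq_top (v := fun z => (1 : K) ⊗ₜ[R] v z) ?_).trans le_rfl
  rw [eq_top_iff]
  rintro z -
  induction z using TensorProduct.induction_on with
  | zero => exact Submodule.zero_mem _
  | tmul a c =>
    have hfc : f • c ∈ Submodule.span R (Set.range v) :=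
      (Submodule.Quotient.mk_eq_zero _).1 (hf (q c))
    have h1 : (1 : K) ⊗ₜ[R] (f • c) ∈
        Submodule.span K (Set.range fun z => (1 : K) ⊗ₜ[R] v z) := by
      generalize f • c = w at hfc
      induction hfc using Submodule.span_induction with
      | mem w hw => obtain ⟨z, rfl⟩ := hw; exact Submodule.subset_span ⟨z, rfl⟩
      | zero => simp
      | add a b _ _ ha hb => rw [tmul_add]; exact Submodule.add_mem _ ha hb
      | smul r b _ hb => rw [tmul_smul]; exact Submodule.smul_of_tower_mem _ r hb
    have hf0 : algebraMap R K f ≠ 0 := hK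
    rw [show a ⊗ₜ[R] c = (a * (algebraMap R K f)⁻¹) • ((1 : K) ⊗ₜ[R] (f • c)) by
      rw [tmul_smul, smul_tmul', Algebra.smul_def, smul_tmul', smul_eq_mul, mul_one,
        mul_assoc, inv_mul_cancel₀ hf0, mul_one]]
    exact Submodule.smul_mem _ _ h1
  | add x y hx hy => exact Submodule.add_mem _ hx hy

/-- The fibre dimension of a finite projective module is its rank. -/
theorem finrank_fibre_eq_rankAtStalk [Module.Finite R C] [Module.Projective R C] (K : Type u)
    [Field K] [Algebra R K] :
    Module.finrank K (K ⊗[R] C) = Module.rankAtStalk C (fieldPoint R K) := by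
  rw [fieldPoint, ← Module.rankAtStalk_baseChange, Module.rankAtStalk_eq_finrank_of_free]
  rfl

end Finite

section Index

variable {P Q : Type v} [AddCommGroup P] [Module R P] [AddCommGroup Q] [Module R Q]

/-- A differential is surjective on a fibre iff the cokernel vanishes there. -/
theorem surjective_baseChange_iff {d : P →ₗ[R] Q} [Module.Finite R (Q ⧸ LinearMap.range d)]
    (K : Type u) [Field K] [Algebra R K] :
    Function.Surjective (d.baseChange K) ↔
      fieldPoint R K ∉ Module.support R (Q ⧸ LinearMap.range d) := by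
  rw [← subsingleton_fibre_iff]
  have hex : Function.Exact (d.baseChange K) ((LinearMap.range d).mkQ.baseChange K) :=
    lTensor_exact K (LinearMap.exact_map_mkQ_range d) (Submodule.mkQ_surjective _)
  have hsurj : Function.Surjective ((LinearMap.range d).mkQ.baseChange K) :=
    LinearMap.lTensor_surjective K (Submodule.mkQ_surjective _)
  constructor
  · refine fun h => subsingleton_of_forall_eq 0 fun z => ?_
    obtain ⟨z, rfl⟩ := hsurj z
    exact (hex z).2 (h z)
  · exact fun h z => (hex z).1 (Subsingleton.elim _ _)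

/-- The set of points at which the cokernel vanishes is open. -/
theorem isOpen_compl_support {C : Type v} [AddCommGroup C] [Module R C] [Module.Finite R C] :
    IsOpen (Module.support R C)ᶜ := by
  rw [Module.support_eq_zeroLocus]
  exact (PrimeSpectrum.isClosed_zeroLocus _).isOpen_compl

/-- Index of a base change of a surjection onto a projective module. -/
theorem index_baseChange_of_surjective [Module.Projective R Q] {d : P →ₗ[R] Q}
    (hd : Function.Surjective d) [Module.Finite R (LinearMap.ker d)]
    [Module.Projective R (LinearMap.ker d)] (K : Type u) [Field K] [Algebra R K] :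
    Function.Surjective (d.baseChange K) ∧ FiniteDimensional K (LinearMap.ker (d.baseChange K)) ∧
      (d.baseChange K).index = Module.rankAtStalk (LinearMap.ker d) (fieldPoint R K) := by
  have comm : TensorProduct.mk R K Q 1 ∘ₗ d =
      (d.baseChange K).restrictScalars R ∘ₗ TensorProduct.mk R K P 1 := by ext; simp
  have hs : Function.Surjective (d.baseChange K) := LinearMap.lTensor_surjective K hd
  have hk := isBaseChange_kerMap comm (TensorProduct.isBaseChange R P K)
    (TensorProduct.isBaseChange R Q K) hd
  refine ⟨hs, Module.Finite.equiv hk.equiv, ?_⟩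
  rw [LinearMap.index_of_surjective hs, ← hk.equiv.finrank_eq, finrank_fibre_eq_rankAtStalk]

/-- Index of a base change of an injection with projective cokernel. -/
theorem index_baseChange_of_exact {C : Type v} [AddCommGroup C] [Module R C] [Module.Finite R C]
    [Module.Projective R C] {ψ : P →ₗ[R] Q} (hψ : Function.Injective ψ) {π : Q →ₗ[R] C}
    (hex : Function.Exact ψ π) (hπ : Function.Surjective π) (K : Type u) [Field K] [Algebra R K] :
    Function.Injective (ψ.baseChange K) ∧
      FiniteDimensional K ((K ⊗[R] Q) ⧸ LinearMap.range (ψ.baseChange K)) ∧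
      (ψ.baseChange K).index = -(Module.rankAtStalk C (fieldPoint R K) : ℤ) := by
  obtain ⟨s, hs⟩ := Module.projective_lifting_property π LinearMap.id hπ
  have htfae := (hex.split_tfae').out 0 1
  obtain ⟨-, r, hr⟩ := htfae.1 ⟨hψ, s, hs⟩
  have hinj : Function.Injective (ψ.baseChange K) := by
    intro a b hab
    have := congrArg (r.baseChange K) hab
    rwa [← LinearMap.comp_apply, ← LinearMap.comp_apply, ← LinearMap.baseChange_comp, hr,
      LinearMap.baseChange_id, LinearMap.id_apply, LinearMap.id_apply] at this
  have hex' : Function.Exact (ψ.baseChange K) (π.baseChange K) := lTensor_exact K hex hπ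
  let e : ((K ⊗[R] Q) ⧸ LinearMap.range (ψ.baseChange K)) ≃ₗ[K] K ⊗[R] C :=
    hex'.linearEquivOfSurjective (LinearMap.lTensor_surjective K hπ)
  refine ⟨hinj, Module.Finite.equiv e.symm, ?_⟩
  rw [LinearMap.index_of_injective hinj, e.finrank_eq, finrank_fibre_eq_rankAtStalk]

end Index

variable {M₀ M₁ M₀₁ : Type v}
variable [AddCommGroup M₀] [Module R M₀] [Module R[X] M₀] [IsScalarTower R R[X] M₀]
variable [AddCommGroup M₁] [Module R M₁] [Module R[X] M₁] [IsScalarTower R R[X] M₁]
variable [AddCommGroup M₀₁] [Module R M₀₁]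
variable {x : M₀₁ ≃ₗ[R] M₀₁} {r₀ : M₀ →ₗ[R] M₀₁} {r₁ : M₁ →ₗ[R] M₀₁}

/-- `M / Xⁿ M` is finite projective over `R` for a finite projective `R[X]`-module `M`. -/
theorem finite_projective_quot_X_pow [Module.Finite R[X] M₁] [Module.Projective R[X] M₁] (n : ℕ) :
    Module.Finite R (M₁ ⧸ (Ideal.span {(X : R[X]) ^ n} • ⊤ : Submodule R[X] M₁)) ∧
      Module.Projective R (M₁ ⧸ (Ideal.span {(X : R[X]) ^ n} • ⊤ : Submodule R[X] M₁)) := by
  set I := Ideal.span {(X : R[X]) ^ n}
  have : Module.Free R (R[X] ⧸ I) := (monic_X_pow (R := R) n).free_quotient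
  have : Module.Finite R (R[X] ⧸ I) := (monic_X_pow (R := R) n).finite_quotient
  let e := TensorProduct.quotTensorEquivQuotSMul M₁ I
  have hP : Module.Projective R ((R[X] ⧸ I) ⊗[R[X]] M₁) :=
    projective_of_free_algebra (A := R[X] ⧸ I)
  have hF : Module.Finite R ((R[X] ⧸ I) ⊗[R[X]] M₁) := Module.Finite.trans (R[X] ⧸ I) _
  exact ⟨Module.Finite.equiv (e.restrictScalars R),
    Module.Projective.of_equiv (e.restrictScalars R)⟩

namespace IsLineGlue

/-- Multiplication by `X ^ n` is injective on a projective `R[X]`-module. -/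
theorem X_pow_smul_injective [Module.Projective R[X] M₁] (n : ℕ) :
    Function.Injective fun m : M₁ => (X : R[X]) ^ n • m := by
  intro a b hab
  obtain ⟨i, hi⟩ := (Module.projective_def' (R := R[X]) (P := M₁)).1 inferInstance
  apply LinearMap.injective_of_comp_eq_id _ _ hi
  ext z : 1
  have := congrArg (fun w => i w z) hab
  simp only [map_smul, Finsupp.smul_apply, smul_eq_mul] at this
  exact (monic_X_pow (R := R) n).isRegular.left this

/-- The Euler characteristic of the fibres is locally constant: it is the difference of the ranks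
of two finite projective modules. -/
theorem exists_index_eq [Module.Finite R[X] M₀] [Module.Projective R[X] M₀]
    [Module.Finite R[X] M₁] [Module.Projective R[X] M₁] [Module.Projective R M₀₁]
    (h : IsLineGlue x r₀ r₁) :
    ∃ χ : PrimeSpectrum R → ℤ, IsLocallyConstant χ ∧ ∀ (K : Type u) [Field K] [Algebra R K],
      ((diff r₀ r₁).baseChange K).index = χ (fieldPoint R K) ∧
        FiniteDimensional K (LinearMap.ker ((diff r₀ r₁).baseChange K)) ∧
        FiniteDimensional K ((K ⊗[R] M₀₁) ⧸ LinearMap.range ((diff r₀ r₁).baseChange K)) := by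
  obtain ⟨N, hN⟩ := h.exists_twist_surjective
  have hsurj := hN N le_rfl
  set dN := diff r₀ ((x ^ (N : ℤ)).toLinearMap ∘ₗ r₁) with hdN
  let μ : M₁ →ₗ[R] M₁ := ((LinearMap.lsmul R[X] M₁) ((X : R[X]) ^ N)).restrictScalars R
  let φ : (M₀ × M₁) →ₗ[R] (M₀ × M₁) := LinearMap.prodMap LinearMap.id μ
  let C := M₁ ⧸ (Ideal.span {(X : R[X]) ^ N} • ⊤ : Submodule R[X] M₁)
  obtain ⟨_, _⟩ := finite_projective_quot_X_pow (M₁ := M₁) (R := R) N
  let π : (M₀ × M₁) →ₗ[R] C :=
    (Submodule.mkQ _).restrictScalars R ∘ₗ LinearMap.snd R M₀ M₁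
  have hfac : diff r₀ r₁ = dN ∘ₗ φ := by
    refine LinearMap.ext fun p => ?_
    simp [dN, φ, μ, h.r₁_X_pow]
  have hφ : Function.Injective φ := fun a b hab => by
    simp only [φ, μ, LinearMap.prodMap_apply, Prod.mk.injEq, LinearMap.id_apply] at hab
    exact Prod.ext hab.1 (X_pow_smul_injective N hab.2)
  have hex : Function.Exact φ π := by
    intro z
    have hz : π z = 0 ↔ z.2 ∈ (Ideal.span {(X : R[X]) ^ N} • ⊤ : Submodule R[X] M₁) :=
      Submodule.Quotient.mk_eq_zero _
    rw [hz, Submodule.ideal_span_singleton_smul, Submodule.mem_smul_pointwise_iff_exists]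
    constructor
    · rintro ⟨y, -, hy⟩
      exact ⟨(z.1, y), Prod.ext rfl hy⟩
    · rintro ⟨y, rfl⟩
      exact ⟨y.2, Submodule.mem_top, rfl⟩
  have hπ : Function.Surjective π := fun c => by
    obtain ⟨m, rfl⟩ := Submodule.Quotient.mk_surjective _ c
    exact ⟨(0, m), rfl⟩
  obtain ⟨_, _⟩ := (h.twist N).finite_projective_ker hsurj
  have : Module.FinitePresentation R (LinearMap.ker dN) :=
    Module.finitePresentation_of_projective R _
  have : Module.FinitePresentation R C := Module.finitePresentation_of_projective R _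
  refine ⟨fun p => (Module.rankAtStalk (LinearMap.ker dN) p : ℤ) - Module.rankAtStalk C p,
    (Module.isLocallyConstant_rankAtStalk.comp (fun n : ℕ => (n : ℤ))).comp₂
      (Module.isLocallyConstant_rankAtStalk.comp (fun n : ℕ => (n : ℤ))) (· - ·),
    fun K _ _ => ?_⟩
  obtain ⟨hs, hk, hi⟩ := index_baseChange_of_surjective hsurj K
  obtain ⟨hj, hc, hi'⟩ := index_baseChange_of_exact hφ hex hπ K
  have hkφ : FiniteDimensional K (LinearMap.ker (φ.baseChange K)) := by
    rw [LinearMap.ker_eq_bot.2 hj]; infer_instance
  have hcd : FiniteDimensional K ((K ⊗[R] M₀₁) ⧸ LinearMap.range (dN.baseChange K)) := by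
    rw [LinearMap.range_eq_top.2 hs]; infer_instance
  rw [hfac, LinearMap.baseChange_comp]
  refine ⟨?_, ?_, ?_⟩
  · simp only [LinearMap.index_comp, hi, hi', sub_eq_add_neg]
  · rw [LinearMap.ker_comp]; infer_instance
  · rw [LinearMap.range_comp]; infer_instance

/-- Near a point where `H¹` of the fibre vanishes, `H¹` vanishes after every base change. -/
theorem exists_surjective_baseChange [Module.Finite R[X] M₀] (h : IsLineGlue x r₀ r₁)
    (K : Type u) [Field K] [Algebra R K] (hK : Function.Surjective ((diff r₀ r₁).baseChange K)) :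
    ∃ f : R, f ∉ (fieldPoint R K).asIdeal ∧ ∀ (S : Type u) [CommRing S] [Algebra R S],
      IsUnit (algebraMap R S f) → Function.Surjective ((diff r₀ r₁).baseChange S) := by
  have := h.finite_coker
  rw [surjective_baseChange_iff] at hK
  obtain ⟨f, hfp, hf⟩ := exists_smul_eq_zero_of_fibre _ (not_nontrivial_iff_subsingleton.1
    (mt (Module.mem_support_iff_nontrivial_residueField_tensorProduct _).2 hK))
  refine ⟨f, hfp, fun S _ _ hu z => ?_⟩
  have : Subsingleton (S ⊗[R] (M₀₁ ⧸ LinearMap.range (diff r₀ r₁))) :=
    subsingleton_of_isBaseChange_of_isUnit (TensorProduct.isBaseChange R _ S) hu hf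
  exact (lTensor_exact S (LinearMap.exact_map_mkQ_range (diff r₀ r₁))
    (Submodule.mkQ_surjective _) z).1 (Subsingleton.elim _ _)

end IsLineGlue

end Fermat.Agent.Jac.Coh
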